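/-
helper34: elements of `SL(2, ℤ)` of trace `0, ± 1` have order dividing `12` (Mathlib only).
Used for P-ES / S31-KUM.
-/
import Mathlib

set_option autoImplicit false

open scoped MatrixGroups

namespace Fermat.Agent.H34

/-- Cayley–Hamilton for `SL(2, ℤ)`: `A * A = tr(A) • A - 1`. -/
theorem sl2Z_mul_self (A : SL(2, ℤ)) (t : ℤ) (ht : A 0 0 + A 1 1 = t) :
    (A : Matrix (Fin 2) (Fin 2) ℤ) * (A : Matrix (Fin 2) (Fin 2) ℤ)
      = t • (A : Matrix (Fin 2) (Fin 2) ℤ) - 1 := by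
  have hdet : A 0 0 * A 1 1 - A 0 1 * A 1 0 = 1 := by
    have := A.det_coe
    rwa [Matrix.det_fin_two] at this
  ext i j
  rw [Matrix.sub_apply, Matrix.smul_apply, Matrix.mul_apply, Fin.sum_univ_two, smul_eq_mul,
    Matrix.one_apply]
  fin_cases i <;> fin_cases j
  · simp only [Fin.zero_eta, if_true]
    linear_combination (-1 : ℤ) * hdet + A 0 0 * ht
  · simp only [Fin.zero_eta, Fin.mk_one, Fin.isValue, zero_ne_one, if_false]
    linear_combination A 0 1 * ht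
  · simp only [Fin.zero_eta, Fin.mk_one, Fin.isValue, one_ne_zero, if_false]
    linear_combination A 1 0 * ht
  · simp only [Fin.mk_one, if_true]
    linear_combination (-1 : ℤ) * hdet + A 1 1 * ht

/-- A matrix in `SL(2, ℤ)` with `|tr| ≤ 1` satisfies `M ^ 12 = 1`. -/
theorem sl2Z_matrix_pow_twelve (A : SL(2, ℤ)) (h : |A 0 0 + A 1 1| ≤ 1) :
    (A : Matrix (Fin 2) (Fin 2) ℤ) ^ 12 = 1 := by
  rw [abs_le] at h
  have ht : A 0 0 + A 1 1 = 0 ∨ A 0 0 + A 1 1 = 1 ∨ A 0 0 + A 1 1 = -1 := by omega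
  rcases ht with ht | ht | ht
  · have hCH := sl2Z_mul_self A 0 ht
    rw [zero_smul, zero_sub] at hCH
    have h4 : (A : Matrix (Fin 2) (Fin 2) ℤ) ^ 4 = 1 := by
      rw [show (4 : ℕ) = 2 + 2 by norm_num, pow_add, pow_two, hCH]
      simp
    rw [show (12 : ℕ) = 4 * 3 by norm_num, pow_mul, h4, one_pow]
  · have hCH := sl2Z_mul_self A 1 ht
    rw [one_smul] at hCH
    have h3 : (A : Matrix (Fin 2) (Fin 2) ℤ) ^ 3 = -1 := by
      rw [show (3 : ℕ) = 2 + 1 by norm_num, pow_add, pow_two, pow_one, hCH, sub_mul, hCH]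
      simp
    rw [show (12 : ℕ) = 3 * 4 by norm_num, pow_mul, h3]
    simp [pow_succ]
  · have hCH := sl2Z_mul_self A (-1) ht
    rw [neg_one_smul] at hCH
    have h3 : (A : Matrix (Fin 2) (Fin 2) ℤ) ^ 3 = 1 := by
      rw [show (3 : ℕ) = 2 + 1 by norm_num, pow_add, pow_two, pow_one, hCH, sub_mul, neg_mul,
        hCH]
      simp
    rw [show (12 : ℕ) = 3 * 4 by norm_num, pow_mul, h3, one_pow]

/-- An element of `SL(2, ℤ)` with `|tr| ≤ 1` satisfies `A ^ 12 = 1`. -/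
theorem sl2Z_pow_twelve (A : SL(2, ℤ)) (h : |A 0 0 + A 1 1| ≤ 1) : A ^ 12 = 1 := by
  apply Subtype.ext
  rw [Matrix.SpecialLinearGroup.coe_pow]
  exact sl2Z_matrix_pow_twelve A h

/-- An additive map from a subgroup of `SL(2, ℤ)` to `ℤ` kills the elements with `|tr| ≤ 1`. -/
theorem hom_eq_zero_of_abs_trace_le_one {Γ : Subgroup SL(2, ℤ)} (ψ : Additive ↥Γ →+ ℤ)
    (γ : ↥Γ) (h : |(γ : SL(2, ℤ)) 0 0 + (γ : SL(2, ℤ)) 1 1| ≤ 1) :
    ψ (Additive.ofMul γ) = 0 := by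
  have h12 : γ ^ 12 = 1 := by
    apply Subtype.ext
    rw [Subgroup.coe_pow, Subgroup.coe_one]
    exact sl2Z_pow_twelve _ h
  have h1 : ψ (Additive.ofMul (γ ^ 12)) = 12 • ψ (Additive.ofMul γ) := by
    rw [ofMul_pow, map_nsmul]
  rw [h12, ofMul_one, map_zero] at h1
  have h2 : (12 : ℤ) * ψ (Additive.ofMul γ) = 0 := by
    rw [h1]
    simp
  omega

end Fermat.Agent.H34
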