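/-
helper34: P-ES / S31-KUM.  The Kummer characters `γ ↦ ζ ^ ψ(γ)` attached to additive maps
`ψ : Γ → ℤ` (Mathlib only).
-/
import Fermat.Agent.H34.S31Kum.Elliptic

set_option autoImplicit false

noncomputable section

namespace Fermat.Agent.H34

section kumChar

variable {Γ : Type*} [Group Γ]

/-- The character `γ ↦ ζ ^ ψ(γ)` of `Γ` attached to an additive map `ψ : Γ → ℤ`. -/
def kumChar (ζ : ℂˣ) (ψ : Additive Γ →+ ℤ) : Γ →* ℂˣ :=
  MonoidHom.toAdditive.symm ((zmultiplesHom (Additive ℂˣ) (Additive.ofMul ζ)).comp ψ)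

theorem toAdditive_kumChar (ζ : ℂˣ) (ψ : Additive Γ →+ ℤ) :
    MonoidHom.toAdditive (kumChar ζ ψ)
      = (zmultiplesHom (Additive ℂˣ) (Additive.ofMul ζ)).comp ψ :=
  Equiv.apply_symm_apply _ _

@[simp]
theorem kumChar_apply (ζ : ℂˣ) (ψ : Additive Γ →+ ℤ) (γ : Γ) :
    kumChar ζ ψ γ = ζ ^ ψ (Additive.ofMul γ) := rfl

theorem kumChar_add (ζ : ℂˣ) (ψ ψ' : Additive Γ →+ ℤ) :
    kumChar ζ (ψ + ψ') = kumChar ζ ψ * kumChar ζ ψ' := by
  ext γ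
  simp [zpow_add]

theorem kumChar_pow_eq_one {ζ : ℂˣ} {m : ℕ} (hζ : ζ ^ m = 1) (ψ : Additive Γ →+ ℤ) :
    kumChar ζ ψ ^ m = 1 := by
  ext γ
  simp only [MonoidHom.pow_apply, kumChar_apply, MonoidHom.one_apply, Units.val_one]
  rw [← zpow_natCast, ← zpow_mul, mul_comm, zpow_mul, zpow_natCast, hζ, one_zpow]
  rfl

/-- If the Kummer character of `ψ` is trivial, then `ψ` is divisible by `m`. -/
theorem exists_eq_nsmul_of_kumChar_eq_one {ζ : ℂˣ} {m : ℕ} (hm : 0 < m)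
    (hζ : IsPrimitiveRoot ζ m) {ψ : Additive Γ →+ ℤ} (h : kumChar ζ ψ = 1) :
    ∃ ψ' : Additive Γ →+ ℤ, ψ = m • ψ' ∧ ∀ g, ψ g = 0 → ψ' g = 0 := by
  have hdvd : ∀ g : Additive Γ, (m : ℤ) ∣ ψ g := by
    intro g
    have h1 : kumChar ζ ψ (Additive.toMul g) = 1 := by rw [h]; rfl
    rw [kumChar_apply] at h1
    exact (hζ.zpow_eq_one_iff_dvd _).mp h1
  have hm0 : (m : ℤ) ≠ 0 := by exact_mod_cast hm.ne'
  refine ⟨AddMonoidHom.mk' (fun g => ψ g / (m : ℤ)) (fun a b => ?_), ?_, ?_⟩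
  · rw [map_add]
    exact Int.add_ediv_of_dvd_left (hdvd a)
  · refine DFunLike.ext _ _ (fun g => ?_)
    show ψ g = m • (ψ g / (m : ℤ))
    rw [nsmul_eq_mul, Int.mul_ediv_cancel' (hdvd _)]
  · intro g hg
    simp [hg]

end kumChar

end Fermat.Agent.H34

end
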