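/-
helper34: P-ES / S31-KUM.  The Hecke-equivariant Kummer embedding `Λ / m Λ → J₀(N)(ℚ̄)[m]`,
`Λ = Hom_par(Γ₀(N), ℤ)`, from ES-A (unconditional), the Kummer–Hecke equivariance (ES-C2) and the
Hecke-compatible descent `J₀(N)(ℚ̄) → Pic⁰(ℂ(X₀(N)))` (ES-B / C4).
-/
import Fermat.Agent.H14.S31JInterfaces
import Fermat.Agent.H94.QEig.Interfaces
import Fermat.Agent.H23.EsA.Unconditional
import Fermat.Agent.H34.S31Kum.KumChar

set_option autoImplicit false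

noncomputable section

open AlgebraicCurve ModularCurve CongruenceSubgroup ModularCurve.Period
open scoped MatrixGroups

namespace Fermat.Agent.H34

open Fermat.Agent.H23.EsA (TorsionCharRel IsParEllTrivial)

section bridge

variable (N : ℕ) [NeZero N]

omit [NeZero N] in
/-- The Kummer character of a parabolic class is trivial on `± 1`, on the elliptic and on the
parabolic elements. -/
theorem isParEllTrivial_kumChar (ζ : ℂˣ) (ψ : Additive ↥(Gamma0 N) →+ ℤ)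
    (hψ : IsParabolicHom (Gamma0 N) ψ) : IsParEllTrivial N (kumChar ζ ψ) := by
  intro γ hγ
  have h0 : ψ (Additive.ofMul γ) = 0 := by
    by_cases h1 : |((γ : SL(2, ℤ)) 0 0 + (γ : SL(2, ℤ)) 1 1 : ℤ)| ≤ 1
    · exact hom_eq_zero_of_abs_trace_le_one ψ γ h1
    · apply hψ γ
      rw [Matrix.trace_fin_two]
      rw [abs_le] at hγ
      rw [abs_le, not_and_or, not_le, not_le] at h1
      have h2 : ((γ : SL(2, ℤ)) 0 0 + (γ : SL(2, ℤ)) 1 1 : ℤ) = 2 ∨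
          ((γ : SL(2, ℤ)) 0 0 + (γ : SL(2, ℤ)) 1 1 : ℤ) = -2 := by omega
      rcases h2 with h2 | h2
      · rw [h2]; norm_num
      · rw [h2]; norm_num
  rw [kumChar_apply, h0, zpow_zero]

omit [NeZero N] in
/-- The transfer on characters of a Kummer character is the Kummer character of the transfer. -/
theorem cohTChar_kumChar (ζ : ℂˣ) (ℓ : ℕ) (hℓ : ℓ.Prime) (hℓN : ¬ ℓ ∣ N)
    (ψ : Additive ↥(Gamma0 N) →+ ℤ) :
    Fermat.Agent.H21.EsC.cohTChar N ℓ hℓ hℓN (kumChar ζ ψ)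
      = kumChar ζ (Fermat.Agent.H21.cohT N ℓ hℓ hℓN ℤ ψ) := by
  unfold Fermat.Agent.H21.EsC.cohTChar
  rw [toAdditive_kumChar, Fermat.Agent.H21.cohT_comp]
  rfl

/-- **S31-KUM**: the Kummer embedding, from the Kummer–Hecke equivariance and the
Hecke-compatible descent. -/
theorem kummerEmbedding (hKH : Fermat.Agent.H21.EsC.KummerHeckeStatement N)
    (hHD : Fermat.Agent.H94.QEig.HeckeDescentStatement N) :
    Fermat.Agent.H14.KummerEmbeddingStatement N := by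
  intro m hm
  have hm0 : m ≠ 0 := hm.ne'
  -- a primitive `m`-th root of unity
  obtain ⟨ζ, hζ⟩ : ∃ ζ : ℂˣ, IsPrimitiveRoot ζ m := by
    have h := Complex.isPrimitiveRoot_exp m hm0
    obtain ⟨ζ, hζ'⟩ := h.isUnit hm0
    exact ⟨ζ, IsPrimitiveRoot.coe_units_iff.mp (hζ' ▸ h)⟩
  have hζm : ζ ^ m = 1 := hζ.pow_eq_one
  -- ES-A
  obtain ⟨-, huniq, hprop, hadd, hinj, hsurj⟩ :=
    Fermat.Agent.H23.EsA.torsionCharStatement N m hm
  have hrel1 : TorsionCharRel N m 0 1 := by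
    obtain ⟨x, hx⟩ := hsurj 1 (MonoidHom.ext fun γ => by simp) (fun _ _ => rfl)
    have := hinj x hx
    rwa [this] at hx
  have hrelU : ∀ x x' χ, TorsionCharRel N m x χ → TorsionCharRel N m x' χ → x = x' := by
    intro x x' χ hx hx'
    obtain ⟨-, hχm, hχt⟩ := hprop x χ hx
    have hχi : IsParEllTrivial N χ⁻¹ := by
      intro γ hγ
      rw [MonoidHom.inv_apply, hχt γ hγ, inv_one]
    have hχγ : ∀ γ, χ γ ^ m = 1 := fun γ => by
      have := congrArg (fun f : ↥(Gamma0 N) →* ℂˣ => f γ) hχm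
      simpa using this
    have hχim : χ⁻¹ ^ m = 1 := MonoidHom.ext fun γ => by
      simp [hχγ γ]
    have hχχ : χ * χ⁻¹ = 1 := MonoidHom.ext fun γ => by simp
    obtain ⟨x'', hx''⟩ := hsurj χ⁻¹ hχim hχi
    have h1 := hadd x x'' χ χ⁻¹ hx hx''
    have h2 := hadd x' x'' χ χ⁻¹ hx' hx''
    rw [hχχ] at h1 h2
    have h3 := hinj _ h1
    have h4 := hinj _ h2
    have : x + x'' = x' + x'' := by rw [h3, h4]
    exact add_right_cancel this
  -- the complex Kummer map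
  have hchi : ∀ ψ : Fermat.Agent.H14.S31Lat N,
      ∃ x, TorsionCharRel N m x (kumChar ζ (ψ : Additive ↥(Gamma0 N) →+ ℤ)) := fun ψ =>
    hsurj _ (kumChar_pow_eq_one hζm _) (isParEllTrivial_kumChar N ζ _ ψ.2)
  choose κC hκC using hchi
  have hκCadd : ∀ ψ ψ', κC (ψ + ψ') = κC ψ + κC ψ' := by
    intro ψ ψ'
    have h1 := hadd _ _ _ _ (hκC ψ) (hκC ψ')
    rw [← kumChar_add] at h1
    exact hrelU _ _ _ (hκC (ψ + ψ')) h1
  have hκCtors : ∀ ψ, κC ψ ∈ Pic0.torsion ℂ ↥(Fermat.Agent.H23.EsA.FC N) m := fun ψ =>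
    (hprop _ _ (hκC ψ)).1
  -- descent to `ℚ̄`
  obtain ⟨ι⟩ : Nonempty (AlgebraicClosure ℚ →+* ℂ) := by
    have : Algebra.IsAlgebraic ℚ (AlgebraicClosure ℚ) := AlgebraicClosure.isAlgebraic ℚ
    exact ⟨(IsAlgClosed.lift (R := ℚ) (S := AlgebraicClosure ℚ) (M := ℂ)).toRingHom⟩
  obtain ⟨φ, hφinj, hφsurj, hφT⟩ := hHD ι
  have hex : ∀ ψ : Fermat.Agent.H14.S31Lat N, ∃ z₀ : JZero N,
      z₀ ∈ Pic0.torsion (AlgebraicClosure ℚ) ↥(modularFunctionFieldBar N) m ∧ φ z₀ = κC ψ :=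
    fun ψ => hφsurj m hm (κC ψ) (hκCtors ψ)
  choose κ hκtors hκ using hex
  have hκadd : ∀ ψ ψ', κ (ψ + ψ') = κ ψ + κ ψ' := by
    intro ψ ψ'
    apply hφinj
    rw [map_add, hκ, hκ, hκ, hκCadd]
  refine ⟨AddMonoidHom.mk' κ hκadd, ?_, ?_, ?_⟩
  · intro ψ
    have h := Pic0.mem_torsion.mp (hκtors ψ)
    show m • κ ψ = 0
    rw [← natCast_zsmul]
    exact h
  · intro ψ hψ
    replace hψ : κ ψ = 0 := hψ
    have h1 : κC ψ = 0 := by rw [← hκ, hψ, map_zero]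
    have h2 := hκC ψ
    rw [h1] at h2
    have h3 := huniq _ _ _ h2 hrel1
    obtain ⟨ψ', hψ', hpar⟩ := exists_eq_nsmul_of_kumChar_eq_one hm hζ h3
    have hψ'par : IsParabolicHom (Gamma0 N) ψ' := fun γ hγ => hpar _ (ψ.2 γ hγ)
    refine ⟨⟨ψ', hψ'par⟩, ?_⟩
    apply Subtype.ext
    rw [hψ']
    rfl
  · intro ℓ hℓ hℓN ψ ψ' hψψ'
    show κ ψ' = heckeOperatorBar N ⟨ℓ, hℓ⟩ (κ ψ)
    apply hφinj
    have : NeZero ℓ := ⟨hℓ.ne_zero⟩
    have h1 : φ (heckeOperatorBar N ⟨ℓ, hℓ⟩ (κ ψ))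
        = heckeOperatorAlong ℂ N ℓ (φ (κ ψ)) := hφT ℓ hℓ hℓN (κ ψ)
    rw [h1, hκ, hκ]
    have h2 := hKH ℓ hℓ hℓN m hm (κC ψ) _ (hκC ψ)
    rw [cohTChar_kumChar, ← hψψ'] at h2
    exact hrelU _ _ _ (hκC ψ') h2

end bridge

end Fermat.Agent.H34

end
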